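import Fermat.Agent.QuaternionEmbedding.Local
import Fermat.Agent.QuaternionHecke.Order

/-!
# Embeddings of quadratic orders

A rational quaternion of trace `0` and square `D` exists exactly when `D` is a square neither in
`ℚ₂` nor in `ℚ₃`.  Conjugating an element of integral trace and norm by a generator of the left
ideal `{x | x ω in the order}` brings it into the order.
-/

set_option autoImplicit false
set_option linter.unusedSectionVars false
set_option linter.style.haveILetI false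

noncomputable section

open Matrix
open FA.Horocycle FA.QuaternionHecke

namespace FA.QuaternionEmbedding

/-- The criterion. -/
def Embeds (D : ℚ) : Prop := ¬IsSquare (D : ℚ_[2]) ∧ ¬IsSquare (D : ℚ_[3])

theorem exists_pure_iff {D : ℚ} (hD : D ≠ 0) :
    (∃ B C E : ℚ, B ^ 2 - 3 * C ^ 2 - 3 * E ^ 2 = -D) ↔ Embeds D := by
  constructor
  · rintro ⟨B, C, E, h⟩
    refine ⟨fun hs => not_isSquare_two (q := -(D : ℚ_[2])) ?_ (B := B) (C := C) (E := E) ?_ ?_,
      fun hs => not_isSquare_three (q := -(D : ℚ_[3])) ?_ (B := B) (C := C) (E := E) ?_ ?_⟩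
    · simpa using hD
    · exact_mod_cast congrArg (Rat.cast : ℚ → ℚ_[2]) h
    · rwa [neg_neg]
    · simpa using hD
    · exact_mod_cast congrArg (Rat.cast : ℚ → ℚ_[3]) h
    · rwa [neg_neg]
  · rintro ⟨h2, h3⟩
    have hne : ∀ i, ![(1 : ℚ), -3, -3] i ≠ 0 := fun i => by fin_cases i <;> norm_num
    suffices key : ∃ x : Fin 3 → ℚ, ∑ i, ![(1 : ℚ), -3, -3] i * x i ^ 2 = -D by
      obtain ⟨x, hx⟩ := key
      exact ⟨x 0, x 1, x 2, by simp [Fin.sum_univ_three] at hx; linarith⟩
    refine (FA.QuadForms.represents_iff hne (q := -D)).2 ⟨?_, fun p hp => ?_⟩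
    · rcases le_or_gt 0 (-(D : ℝ)) with h | h
      · exact ⟨![√(-(D : ℝ)), 0, 0], by simp [Fin.sum_univ_three, Real.sq_sqrt h]⟩
      · obtain ⟨r, hr⟩ : ∃ r : ℝ, r ^ 2 = D / 3 := ⟨_, Real.sq_sqrt (by linarith)⟩
        refine ⟨![0, r, 0], ?_⟩
        simp [Fin.sum_univ_three, hr]
        ring
    · obtain ⟨B, C, E, h⟩ : ∃ B C E : ℚ_[p],
          B ^ 2 - 3 * C ^ 2 - 3 * E ^ 2 = ((-D : ℚ) : ℚ_[p]) := by
        by_cases hp2 : p = 2
        · subst hp2
          exact exists_value_two (by simpa using hD) (by simpa using h2)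
        by_cases hp3 : p = 3
        · subst hp3
          exact exists_value_three (by simpa using hD) (by simpa using h3)
        exact exists_value_other hp2 hp3 _
      refine ⟨![B, C, E], ?_⟩
      simp [Fin.sum_univ_three] at h ⊢
      linear_combination h

theorem realQuat_sq (B C E : ℝ) :
    realQuat 0 B C E * realQuat 0 B C E = (-(B ^ 2 - 3 * C ^ 2 - 3 * E ^ 2)) • 1 := by
  rw [realQuat_mul]
  ext i j
  fin_cases i <;> fin_cases j <;> simp [realQuat] <;> ring

/-- **Rational embeddings.** -/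
theorem exists_sq_iff {D : ℚ} (hD : D ≠ 0) :
    (∃ B C E : ℚ, realQuat 0 B C E * realQuat 0 B C E = (D : ℝ) • 1) ↔ Embeds D := by
  rw [← exists_pure_iff hD]
  refine exists_congr fun B => exists_congr fun C => exists_congr fun E => ?_
  rw [realQuat_sq]
  constructor
  · intro h
    have e : -((B : ℝ) ^ 2 - 3 * C ^ 2 - 3 * E ^ 2) = D := by
      simpa using congrFun (congrFun h 0) 0
    exact_mod_cast (by linarith : (B : ℝ) ^ 2 - 3 * C ^ 2 - 3 * E ^ 2 = -D)
  · intro h
    have e := congrArg (Rat.cast : ℚ → ℝ) h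
    push_cast at e
    congr 1
    linarith

theorem embeds_of_mem {y : Matrix (Fin 2) (Fin 2) ℝ} (hy : y ∈ order) {t N : ℤ}
    (ht : y.trace = t) (hN : y.det = N) (hD : t ^ 2 - 4 * N ≠ 0) :
    Embeds ((t ^ 2 - 4 * N : ℤ) : ℚ) := by
  obtain ⟨q, rfl⟩ := hy
  rw [← exists_pure_iff (by exact_mod_cast hD)]
  refine ⟨((2 * q.2.1 + q.2.2.2 : ℤ) : ℚ), ((2 * q.2.2.1 + q.2.2.2 : ℤ) : ℚ),
    ((q.2.2.2 : ℤ) : ℚ), ?_⟩
  have et : (t : ℝ) = 2 * q.1 + q.2.2.2 := by
    rw [← ht]
    simp [hurMat, realQuat, trace_fin_two]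
    ring
  have et' : t = 2 * q.1 + q.2.2.2 := by exact_mod_cast et
  rw [det_hurMat] at hN
  have eN : hurNorm q = N := by exact_mod_cast hN
  rw [hurNorm] at eN
  rw [← eN, et']
  push_cast
  ring

theorem exists_conjugate {ω : Matrix (Fin 2) (Fin 2) ℝ} {t N : ℤ} (ht : ω.trace = t)
    (hN : ω.det = N) {d : ℤ} (hd : d ≠ 0) (hdω : (d : ℝ) • ω ∈ order) :
    ∃ y ∈ order, y.trace = t ∧ y.det = N := by
  have hsq : ω * ω = (t : ℝ) • ω - (N : ℝ) • 1 := by
    rw [← ht, ← hN]
    ext i j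
    fin_cases i <;> fin_cases j <;>
      simp [Matrix.mul_apply, Fin.sum_univ_two, trace_fin_two, det_fin_two] <;> ring
  let I : AddSubgroup (Matrix (Fin 2) (Fin 2) ℝ) :=
    { carrier := {x | x ∈ order ∧ x * ω ∈ order}
      add_mem' := fun {x y} hx hy => ⟨add_mem hx.1 hy.1, by
        rw [Matrix.add_mul]; exact add_mem hx.2 hy.2⟩
      zero_mem' := ⟨zero_mem _, by rw [Matrix.zero_mul]; exact zero_mem _⟩
      neg_mem' := fun {x} hx => ⟨neg_mem hx.1, by rw [Matrix.neg_mul]; exact neg_mem hx.2⟩ }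
  obtain ⟨g, ⟨hg, hgω⟩, hgen⟩ := exists_generator I (fun x hx => hx.1) fun a ha x hx =>
    ⟨mul_mem ha hx.1, by rw [Matrix.mul_assoc]; exact mul_mem ha hx.2⟩
  have hgωI : g * ω ∈ I := ⟨hgω, by
    rw [Matrix.mul_assoc, hsq, Matrix.mul_sub, Matrix.mul_smul, Matrix.mul_smul, Matrix.mul_one]
    exact sub_mem (by
      rw [Int.cast_smul_eq_zsmul]
      exact zsmul_mem hgω t) (intCast_smul_mem hg N)⟩
  obtain ⟨y, hy, hyg⟩ := hgen _ hgωI
  obtain ⟨v, -, hvg⟩ := hgen ((d : ℝ) • 1) ⟨intCast_smul_mem (one_mem _) d, by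
    rw [Matrix.smul_mul, Matrix.one_mul]; exact hdω⟩
  have hdet : g.det ≠ 0 := fun h0 => by
    have e := congrArg Matrix.det hvg
    rw [det_smul, det_one, mul_one, det_mul, h0, mul_zero] at e
    exact pow_ne_zero _ (Int.cast_ne_zero.2 hd) e
  refine ⟨y, hy, mul_right_cancel₀ hdet ?_, mul_right_cancel₀ hdet ?_⟩
  · have e := congrArg (fun M => (M * adjugate g).trace) hyg
    simp only [Matrix.mul_assoc y, Matrix.mul_adjugate, Matrix.mul_smul, Matrix.mul_one] at e
    rw [trace_mul_comm, ← Matrix.mul_assoc, Matrix.adjugate_mul, Matrix.smul_mul, Matrix.one_mul,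
      trace_smul, trace_smul, ht] at e
    simp only [smul_eq_mul] at e
    linarith
  · have e := congrArg Matrix.det hyg
    rw [det_mul, det_mul, hN] at e
    linarith

/-- **The embedding criterion.** -/
theorem exists_mem_iff {t N : ℤ} (hD : t ^ 2 - 4 * N ≠ 0) :
    (∃ y ∈ order, y.trace = t ∧ y.det = N) ↔ Embeds ((t ^ 2 - 4 * N : ℤ) : ℚ) := by
  refine ⟨fun ⟨y, hy, ht, hN⟩ => embeds_of_mem hy ht hN hD, fun h => ?_⟩
  obtain ⟨B, C, E, hBCE⟩ := (exists_pure_iff (by exact_mod_cast hD)).2 h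
  set ω : Matrix (Fin 2) (Fin 2) ℝ := realQuat (t / 2) ((B : ℝ) / 2) ((C : ℝ) / 2) ((E : ℝ) / 2)
  have hR := congrArg (Rat.cast : ℚ → ℝ) hBCE
  push_cast at hR
  have ht : ω.trace = t := by
    simp [ω, realQuat, trace_fin_two]
  have hN : ω.det = N := by
    simp only [ω, det_realQuat]
    linarith
  refine exists_conjugate ht hN (d := 2 * (B.den * C.den * E.den : ℤ)) (by positivity)
    ⟨(B.den * C.den * E.den * t - E.num * (B.den * C.den),
      B.num * (C.den * E.den) - E.num * (B.den * C.den),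
      C.num * (B.den * E.den) - E.num * (B.den * C.den), 2 * (E.num * (B.den * C.den))), ?_⟩
  simp only [ω, smul_realQuat, hurMat]
  have hb : (B : ℝ) * B.den = B.num := by exact_mod_cast Rat.mul_den_eq_num B
  have hc : (C : ℝ) * C.den = C.num := by exact_mod_cast Rat.mul_den_eq_num C
  have he : (E : ℝ) * E.den = E.num := by exact_mod_cast Rat.mul_den_eq_num E
  push_cast
  rw [← hb, ← hc, ← he]
  congr 1 <;> ring

end FA.QuaternionEmbedding

end
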