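import Fermat.Agent.QuaternionEmbedding.Criterion
import Fermat.Agent.QuaternionTori.Endomorphisms
import Fermat.Agent.QuaternionCurve.Domain
import Fermat.Agent.CocompactDegree.Degree
import Mathlib.NumberTheory.LSeries.PrimesInAP

/-!
# Points with complex multiplication

An element of trace `t` and norm `N` with `t² < 4 N` fixes a point of the upper half plane, whose
torus has a root of `X² - t X + N` as an endomorphism.  In the box containing a point of every
orbit these elements have bounded entries, so the orbits are finitely many for each `(t, N)`; the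
discriminants `-4 p`, `p ≡ 1 (mod 12)` prime, give infinitely many.
-/

set_option autoImplicit false
set_option linter.unusedSectionVars false
set_option linter.style.haveILetI false

noncomputable section

open Matrix Set
open UpperHalfPlane hiding I
open scoped MatrixGroups
open FA.Horocycle FA.QuaternionHecke FA.QuaternionTori FA.QuaternionCurve FA.CocompactDegree

namespace FA.QuaternionEmbedding

theorem preserves_smul {c : ℂ} {z : ℍ} (h : Preserves c z) {w : ℍ}
    (hw : w ∈ MulAction.orbit orderUnits z) : Preserves c w := by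
  obtain ⟨d, -, hd⟩ := (homothetic_iff z w).2 hw
  intro u hu
  obtain ⟨u', hu', rfl⟩ := (hd u).1 hu
  exact (hd _).2 ⟨c • u', h u' hu', smul_comm c d u'⟩

theorem preserves_mul {c d z : ℂ} (hc : Preserves c z) (hd : Preserves d z) :
    Preserves (c * d) z := fun u hu => by
  rw [mul_smul]
  exact hc _ (hd u hu)

theorem exists_cm {t N : ℤ} (hD : t ^ 2 - 4 * N < 0)
    (h : Embeds ((t ^ 2 - 4 * N : ℤ) : ℚ)) :
    ∃ z : ℍ, ∃ c : ℂ, Preserves c z ∧ c ^ 2 - t * c + N = 0 := by
  obtain ⟨y, hy, ht, hN⟩ := (exists_mem_iff hD.ne).2 h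
  rw [trace_fin_two] at ht
  rw [det_fin_two] at hN
  have hDR : ((t : ℝ) ^ 2 - 4 * N) < 0 := by exact_mod_cast hD
  have h10 : y 1 0 ≠ 0 := fun h0 => by
    rw [h0, mul_zero, sub_zero] at hN
    rw [← ht, ← hN] at hDR
    nlinarith [sq_nonneg (y 0 0 - y 1 1)]
  obtain ⟨a, ha⟩ : ∃ a, a = (y 0 0 - y 1 1) / (2 * y 1 0) := ⟨_, rfl⟩
  obtain ⟨b, hb⟩ : ∃ b, b = √(4 * N - (t : ℝ) ^ 2) / (2 * |y 1 0|) := ⟨_, rfl⟩
  have hb0 : 0 < b := hb ▸ div_pos (Real.sqrt_pos.2 (by linarith)) (by positivity)
  set z : ℍ := ⟨(a : ℂ) + (b : ℂ) * Complex.I, by simpa using hb0⟩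
  have hfix : Fixes y z := by
    have hre : z.re = (y 0 0 - y 1 1) / (2 * y 1 0) := by
      rw [← ha]
      simp [z, UpperHalfPlane.re]
    have him : z.im = √(4 * N - (t : ℝ) ^ 2) / (2 * |y 1 0|) := by
      rw [← hb]
      simp [z, UpperHalfPlane.im]
    have him2 : z.im ^ 2 * (4 * y 1 0 ^ 2) = 4 * N - (t : ℝ) ^ 2 := by
      rw [him, div_pow, Real.sq_sqrt (by linarith), mul_pow, sq_abs]
      field_simp
      ring
    have hre2 : z.re * (2 * y 1 0) = y 0 0 - y 1 1 := by
      rw [hre, div_mul_cancel₀ _ (by simpa using h10)]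
    have e : y 1 0 * (z.re ^ 2 + z.im ^ 2) + y 0 1 = 0 :=
      mul_left_cancel₀ (mul_ne_zero four_ne_zero h10) (by
        linear_combination him2 + (z.re * (2 * y 1 0) + (y 0 0 - y 1 1)) * hre2 - 4 * hN +
          ((y 0 0 + y 1 1) + t) * ht)
    rw [Fixes, Complex.ext_iff]
    simp only [Complex.add_re, Complex.add_im, Complex.mul_re, Complex.mul_im, Complex.ofReal_re,
      Complex.ofReal_im, UpperHalfPlane.coe_re, UpperHalfPlane.coe_im]
    exact ⟨by linear_combination e - z.re * hre2, by linear_combination -z.im * hre2⟩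
  refine ⟨z, _, preserves_iff.2 ⟨y, hy, hfix, rfl⟩, ?_⟩
  rw [show ((t : ℤ) : ℂ) = ((t : ℝ) : ℂ) from (Complex.ofReal_intCast t).symm,
    show ((N : ℤ) : ℂ) = ((N : ℝ) : ℂ) from (Complex.ofReal_intCast N).symm, ← ht, ← hN]
  push_cast
  rw [Fixes] at hfix
  linear_combination -(y 1 0 : ℂ) * hfix

theorem exists_fixing {c z : ℂ} {t N : ℤ} (hD : t ^ 2 - 4 * N < 0) (hc : Preserves c z)
    (hroot : c ^ 2 - t * c + N = 0) :
    ∃ x ∈ order, Fixes x z ∧ x.trace = t ∧ x.det = N := by
  obtain ⟨x, hx, hf, rfl⟩ := preserves_iff.1 hc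
  obtain ⟨T, hT⟩ := exists_trace hx
  obtain ⟨M, hM⟩ := exists_det hx
  set c : ℂ := (x 1 0 : ℂ) * z + (x 1 1 : ℂ) with hcdef
  have hTM : c ^ 2 - T * c + M = 0 := by
    rw [show ((T : ℤ) : ℂ) = ((T : ℝ) : ℂ) from (Complex.ofReal_intCast T).symm,
      show ((M : ℤ) : ℂ) = ((M : ℝ) : ℂ) from (Complex.ofReal_intCast M).symm, ← hT, ← hM,
      trace_fin_two, det_fin_two, hcdef]
    push_cast
    rw [Fixes] at hf
    linear_combination -(x 1 0 : ℂ) * hf
  have him : c.im ≠ 0 := fun h0 => by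
    have e := congrArg Complex.re hroot
    simp [sq, h0] at e
    have hDR : ((t : ℝ) ^ 2 - 4 * N) < 0 := by exact_mod_cast hD
    nlinarith [sq_nonneg (2 * c.re - t)]
  have e : ((t : ℂ) - T) * c = N - M := by linear_combination hTM - hroot
  have e1 := congrArg Complex.im e
  simp at e1
  have htT : t = T := by
    have := e1.resolve_right him
    exact_mod_cast (by linarith : (t : ℝ) = T)
  subst htT
  rw [sub_self, zero_mul] at e
  obtain rfl : N = M := by exact_mod_cast sub_eq_zero.1 e.symm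
  exact ⟨x, hx, hf, hT, hM⟩

theorem finite_fixed_box {t N : ℤ} (hD : t ^ 2 - 4 * N < 0) :
    {z : ℍ | hypT z ≤ 2 ∧ ∃ x ∈ order, Fixes x z ∧ x.trace = t ∧ x.det = N}.Finite := by
  set s := √(4 * N - (t : ℝ) ^ 2)
  set T := {q : Quad | ∀ i j, |hurMat q i j| ≤ |(t : ℝ)| + 40 * s}
  refine ((finite_bounded _).biUnion (s := T)
    (t := fun q => {z : ℍ | hurMat q 1 0 ≠ 0 ∧ Fixes (hurMat q) z}) fun q _ => ?_).subset ?_
  · refine Set.Subsingleton.finite fun z hz w hw => ?_
    obtain ⟨h10, hz⟩ := hz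
    have hzr := congrArg Complex.re hz
    have hzi := congrArg Complex.im hz
    have hwr := congrArg Complex.re hw.2
    have hwi := congrArg Complex.im hw.2
    simp at hzr hzi hwr hwi
    have e1 : z.re = w.re := by
      have a : (hurMat q 0 0 - hurMat q 1 1 - 2 * hurMat q 1 0 * z.re) * z.im = 0 := by
        linear_combination hzi
      have b : (hurMat q 0 0 - hurMat q 1 1 - 2 * hurMat q 1 0 * w.re) * w.im = 0 := by
        linear_combination hwi
      have a' := (mul_eq_zero.1 a).resolve_right z.im_ne_zero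
      have b' := (mul_eq_zero.1 b).resolve_right w.im_ne_zero
      exact mul_left_cancel₀ (mul_ne_zero two_ne_zero h10) (by linarith)
    have e2 : z.im ^ 2 = w.im ^ 2 := mul_left_cancel₀ h10 (by
      rw [e1] at hzr
      linear_combination hzr - hwr)
    exact UpperHalfPlane.ext (Complex.ext e1 ((sq_eq_sq₀ z.im_pos.le w.im_pos.le).1 e2))
  · rintro z ⟨hbox, x, ⟨q, rfl⟩, hf, ht, hN⟩
    rw [trace_fin_two] at ht
    rw [det_fin_two] at hN
    have hr := congrArg Complex.re hf
    have hi := congrArg Complex.im hf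
    simp at hr hi
    set A := hurMat q 0 0
    set B := hurMat q 0 1
    set C := hurMat q 1 0
    set E := hurMat q 1 1
    have hy := z.im_pos
    have hAE : A - E = 2 * C * z.re := mul_right_cancel₀ hy.ne' (by linear_combination hi)
    have hB : B = -C * (z.re ^ 2 + z.im ^ 2) := by linear_combination hr - z.re * hAE
    have hDR : ((t : ℝ) ^ 2 - 4 * N) < 0 := by exact_mod_cast hD
    have hCy : (2 * C * z.im) ^ 2 = s ^ 2 := by
      rw [Real.sq_sqrt (by linarith), ← ht, ← hN, hB]
      linear_combination (A - E + 2 * C * z.re) * hAE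
    have hC0 : C ≠ 0 := fun h0 => by
      rw [h0, Real.sq_sqrt (by linarith)] at hCy
      linarith
    have hs0 : 0 ≤ s := Real.sqrt_nonneg _
    have hb : z.re ^ 2 + z.im ^ 2 + 1 ≤ 2 * (2 * z.im) :=
      (div_le_iff₀ (by positivity)).1 hbox
    have hyl : 1 / 4 ≤ z.im := by nlinarith [sq_nonneg z.re, sq_nonneg z.im]
    have hyu : z.im ≤ 4 := by nlinarith [sq_nonneg z.re, sq_nonneg z.im]
    have hxu : |z.re| ≤ 2 := abs_le_of_sq_le_sq (by nlinarith [sq_nonneg (z.im - 2)]) (by norm_num)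
    have hCs : |C| ≤ 2 * s := by
      have e : |2 * C * z.im| = s := (sq_eq_sq₀ (abs_nonneg _) hs0).1 (by rw [sq_abs, hCy])
      rw [abs_mul, abs_mul, abs_two, abs_of_pos hy] at e
      nlinarith [abs_nonneg C]
    have hCabs := abs_le.1 hCs
    have hd : |A - E| ≤ 8 * s := by
      rw [hAE, abs_mul, abs_mul, abs_two]
      nlinarith [abs_nonneg C, abs_nonneg z.re]
    have hd' := abs_le.1 hd
    have hBs : |B| ≤ 40 * s := by
      have h1 : |z.re ^ 2 + z.im ^ 2| ≤ 20 := by rw [abs_of_nonneg (by positivity)]; nlinarith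
      rw [hB, abs_mul, abs_neg]
      exact (mul_le_mul hCs h1 (abs_nonneg _) (by linarith)).trans (by linarith)
    have hBabs := abs_le.1 hBs
    have htabs := abs_le.1 (le_refl |(t : ℝ)|)
    refine mem_iUnion₂.2 ⟨q, fun i j => ?_, hC0, hf⟩
    fin_cases i <;> fin_cases j <;> refine abs_le.2 ⟨?_, ?_⟩ <;>
      simp only [Fin.mk_one, Fin.zero_eta] <;> linarith

/-- **Finitely many orbits for each discriminant.** -/
theorem finite_orbits {t N : ℤ} (hD : t ^ 2 - 4 * N < 0) :
    {x : Orb orderUnits | ∃ c : ℂ, Preserves c x.out ∧ c ^ 2 - t * c + N = 0}.Finite := by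
  refine ((finite_fixed_box hD).image (Quotient.mk'' : ℍ → Orb orderUnits)).subset
    fun x ⟨c, hc, hroot⟩ => ?_
  obtain ⟨w, hw, hbox⟩ := exists_mem_box x.out
  exact ⟨w, ⟨hbox, exists_fixing hD (preserves_smul hc hw) hroot⟩,
    (Quotient.sound (MulAction.orbitRel_apply.2 hw)).trans x.out_eq⟩

theorem embeds_neg_four_mul {n : ℤ} (h : n % 12 = 1) :
    Embeds (((0 : ℤ) ^ 2 - 4 * n : ℤ) : ℚ) := by
  constructor <;> rintro ⟨s, hs⟩ <;> push_cast at hs
  · have h' : IsSquare ((-n : ℤ) : ℚ_[2]) := ⟨s / 2, by push_cast; linear_combination hs / 4⟩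
    have := (isSquare_two_iff (by omega)).1 h'
    omega
  · have h' : IsSquare ((-n : ℤ) : ℚ_[3]) := ⟨s / 2, by push_cast; linear_combination hs / 4⟩
    have := (isSquare_three_iff (by omega)).1 h'
    omega

/-- **Infinitely many orbits in all.** -/
theorem infinite_orbits :
    {x : Orb orderUnits | ∃ c : ℂ, Preserves c x.out ∧ ∀ n : ℤ, c ≠ n}.Infinite := by
  set P := {p : ℕ | p.Prime ∧ (p : ZMod 12) = 1}
  have hP : P.Infinite := Nat.infinite_setOfPred_prime_and_eq_mod isUnit_one
  have hex : ∀ p : ℕ, ∃ x : Orb orderUnits, p ∈ P →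
      ∃ c : ℂ, Preserves c x.out ∧ c ^ 2 = -(p : ℂ) := fun p => by
    by_cases hp : p ∈ P
    · have hmod : (p : ℤ) % 12 = 1 := by
        have := (ZMod.natCast_eq_natCast_iff' p 1 12).1 (by simpa using hp.2)
        omega
      have hlt : (0 : ℤ) ^ 2 - 4 * p < 0 := by
        have := hp.1.pos
        omega
      obtain ⟨z, c, hc, hroot⟩ := exists_cm (t := 0) (N := p) hlt (embeds_neg_four_mul hmod)
      refine ⟨Quotient.mk'' z, fun _ => ⟨c, preserves_smul hc ?_, ?_⟩⟩
      · exact MulAction.orbitRel_apply.1 (Quotient.exact (Quotient.out_eq _))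
      · push_cast at hroot
        linear_combination hroot
    · exact ⟨Quotient.mk'' UpperHalfPlane.I, fun h => absurd h hp⟩
  choose f hf using hex
  refine infinite_of_injOn_mapsTo (f := f) (fun p hp q hq e => ?_) (fun p hp => ?_) hP
  · obtain ⟨c, hc, hc2⟩ := hf p hp
    obtain ⟨d, hd, hd2⟩ := hf q hq
    rw [← e] at hd
    have hcre : c.re = 0 := by
      have e1 := congrArg Complex.re hc2
      have e2 := congrArg Complex.im hc2
      simp [sq] at e1 e2
      rcases mul_eq_zero.1 (show c.re * c.im = 0 by linarith) with h | h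
      · exact h
      · exfalso
        rw [h] at e1
        have : (0 : ℝ) < p := Nat.cast_pos.2 hp.1.pos
        nlinarith [sq_nonneg c.re]
    have hdre : d.re = 0 := by
      have e1 := congrArg Complex.re hd2
      have e2 := congrArg Complex.im hd2
      simp [sq] at e1 e2
      rcases mul_eq_zero.1 (show d.re * d.im = 0 by linarith) with h | h
      · exact h
      · exfalso
        rw [h] at e1
        have : (0 : ℝ) < q := Nat.cast_pos.2 hq.1.pos
        nlinarith [sq_nonneg d.re]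
    obtain ⟨n, hn⟩ : ∃ n : ℤ, c * d = n := by
      by_contra! hne
      exact im_ne_zero_of_preserves (f p).out.im_ne_zero (preserves_mul hc hd) hne
        (by simp [hcre, hdre])
    have epq : ((n ^ 2 : ℤ) : ℂ) = ((p * q : ℕ) : ℂ) := by
      push_cast
      linear_combination -(c * d + n) * hn + d ^ 2 * hc2 - (p : ℂ) * hd2
    have epq' : n.natAbs ^ 2 = p * q := by
      have h : n ^ 2 = ((p * q : ℕ) : ℤ) := by exact_mod_cast epq
      rw [← Int.natAbs_pow, h, Int.natAbs_natCast]
    by_contra hne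
    have hcop := (Nat.coprime_primes hp.1 hq.1).2 hne
    have hpn : p ∣ n.natAbs := hp.1.dvd_of_dvd_pow (epq' ▸ dvd_mul_right p q)
    have h2 : p * p ∣ p * q := epq' ▸ (by rw [sq]; exact mul_dvd_mul hpn hpn)
    exact hne ((Nat.prime_dvd_prime_iff_eq hp.1 hq.1).1
      (Nat.dvd_of_mul_dvd_mul_left hp.1.pos h2))
  · obtain ⟨c, hc, hc2⟩ := hf p hp
    refine ⟨c, hc, fun n hn => ?_⟩
    rw [hn] at hc2
    have h : n ^ 2 = -(p : ℤ) := by exact_mod_cast hc2
    nlinarith [hp.1.pos, sq_nonneg n]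

end FA.QuaternionEmbedding

end
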