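import Fermat.Agent.QuadForms.Corollaries

/-!
# The pure quaternions over `ℚ₂` and `ℚ₃`

Over `ℚ_p`, `p = 2, 3`, the form `x² - 3 y² - 3 z²` represents exactly the `q` for which `-q` is
not a square; for the other primes it represents everything.
-/

set_option autoImplicit false
set_option linter.unusedSectionVars false
set_option linter.style.haveILetI false

noncomputable section

open Finset

namespace FA.QuaternionEmbedding

theorem anisotropic_of_squares {p k : ℕ} [Fact p.Prime] (a : Fin 4 → ℤ)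
    (S : Finset (ZMod (p ^ k))) (hS : ∀ u : ZMod (p ^ k), u ^ 2 ∈ S)
    (key : ∀ u ∈ S, ∀ v ∈ S, ∀ w ∈ S,
      (a 0 : ZMod (p ^ k)) + a 1 * u + a 2 * v + a 3 * w ≠ 0 ∧
      (a 0 : ZMod (p ^ k)) * u + a 1 + a 2 * v + a 3 * w ≠ 0 ∧
      (a 0 : ZMod (p ^ k)) * u + a 1 * v + a 2 + a 3 * w ≠ 0 ∧
      (a 0 : ZMod (p ^ k)) * u + a 1 * v + a 2 * w + a 3 ≠ 0)
    (x : Fin 4 → ℚ_[p]) (he : ∑ i, (a i : ℚ_[p]) * x i ^ 2 = 0) : x = 0 := by
  classical
  by_contra hx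
  obtain ⟨i₀, -, hmax⟩ := Finset.exists_max_image (univ : Finset (Fin 4)) (fun i => ‖x i‖)
    univ_nonempty
  have hm : x i₀ ≠ 0 := fun h0 => hx (funext fun i => by
    simpa [h0] using hmax i (mem_univ i))
  have hle : ∀ i, ‖x i / x i₀‖ ≤ 1 := fun i => by
    rw [norm_div, div_le_one (norm_pos_iff.2 hm)]
    exact hmax i (mem_univ i)
  set y : Fin 4 → ℤ_[p] := fun i => ⟨x i / x i₀, hle i⟩ with hy
  have h1 : y i₀ = 1 := PadicInt.ext (by simp [hy, div_self hm])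
  have hsum : ∑ i, (a i : ℤ_[p]) * y i ^ 2 = 0 := by
    refine PadicInt.coe_eq_zero.1 ?_
    have e : ∑ i, (a i : ℚ_[p]) * (x i / x i₀) ^ 2 = 0 := by
      simp only [div_pow, ← mul_div_assoc, ← sum_div]
      rw [he, zero_div]
    change PadicInt.Coe.ringHom (∑ i, (a i : ℤ_[p]) * y i ^ 2) = 0
    rw [map_sum, ← e]
    refine sum_congr rfl fun i _ => ?_
    rw [map_mul, map_pow, map_intCast]
    rfl
  have h8 := congrArg (PadicInt.toZModPow k) hsum
  rw [map_sum, map_zero, Fin.sum_univ_four] at h8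
  simp only [map_mul, map_pow, map_intCast] at h8
  have hone : PadicInt.toZModPow k (y i₀) = 1 := by rw [h1, map_one]
  rcases (show i₀ = 0 ∨ i₀ = 1 ∨ i₀ = 2 ∨ i₀ = 3 by fin_cases i₀ <;> simp) with e | e | e | e <;>
    subst e <;> simp only [hone, one_pow, mul_one] at h8
  · exact (key _ (hS _) _ (hS _) _ (hS _)).1 h8
  · exact (key _ (hS _) _ (hS _) _ (hS _)).2.1 h8
  · exact (key _ (hS _) _ (hS _) _ (hS _)).2.2.1 h8
  · exact (key _ (hS _) _ (hS _) _ (hS _)).2.2.2 h8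

theorem not_isSquare_two {B C E : ℚ_[2]} {q : ℚ_[2]} (hq : q ≠ 0)
    (h : B ^ 2 - 3 * C ^ 2 - 3 * E ^ 2 = q) : ¬IsSquare (-q) := by
  rintro ⟨s, hs⟩
  have e := anisotropic_of_squares (p := 2) (k := 3) ![1, 1, -3, -3] {0, 1, 4} (by decide)
    (by decide) ![s, B, C, E] (by
      simp [Fin.sum_univ_four]
      linear_combination h - hs)
  have e0 := congrFun e 0
  have e1 := congrFun e 1
  have e2 := congrFun e 2
  have e3 := congrFun e 3
  simp at e0 e1 e2 e3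
  exact hq (by rw [← h, e1, e2, e3]; ring)

theorem not_isSquare_three {B C E : ℚ_[3]} {q : ℚ_[3]} (hq : q ≠ 0)
    (h : B ^ 2 - 3 * C ^ 2 - 3 * E ^ 2 = q) : ¬IsSquare (-q) := by
  rintro ⟨s, hs⟩
  have e := anisotropic_of_squares (p := 3) (k := 2) ![1, 1, -3, -3] {0, 1, 4, 7} (by decide)
    (by decide) ![s, B, C, E] (by
      simp [Fin.sum_univ_four]
      linear_combination h - hs)
  have e0 := congrFun e 0
  have e1 := congrFun e 1
  have e2 := congrFun e 2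
  have e3 := congrFun e 3
  simp at e0 e1 e2 e3
  exact hq (by rw [← h, e1, e2, e3]; ring)

theorem exists_value_two {q : ℚ_[2]} (hq : q ≠ 0) (hs : ¬IsSquare (-q)) :
    ∃ B C E : ℚ_[2], B ^ 2 - 3 * C ^ 2 - 3 * E ^ 2 = q := by
  obtain ⟨α, r, hα, hr, hcl⟩ := FA.QuadForms.exists_squareClass hq
  rw [Nat.cast_ofNat] at hr
  obtain ⟨n, A, B, C, hn8, habc⟩ : ∃ n A B C : ℤ, (8 : ℤ) ∣ n - r ∧
      (n * 2 ^ α = A ^ 2 - 3 * B ^ 2 - 3 * C ^ 2 ∨ n * 2 ^ α = -1) := by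
    rcases (show r % 8 = 1 ∨ r % 8 = 3 ∨ r % 8 = 5 ∨ r % 8 = 7 by omega) with e | e | e | e <;>
      interval_cases α
    · exact ⟨1, 1, 0, 0, by omega, .inl (by norm_num)⟩
    · exact ⟨-7, 4, 3, 1, by omega, .inl (by norm_num)⟩
    · exact ⟨3, 3, 1, 1, by omega, .inl (by norm_num)⟩
    · exact ⟨-13, 2, 3, 1, by omega, .inl (by norm_num)⟩
    · exact ⟨-3, 0, 1, 0, by omega, .inl (by norm_num)⟩
    · exact ⟨-3, 0, 1, 1, by omega, .inl (by norm_num)⟩
    · exact ⟨-1, 0, 0, 0, by omega, .inr (by norm_num)⟩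
    · exact ⟨-1, 2, 1, 1, by omega, .inl (by norm_num)⟩
  obtain ⟨s, -, hqs⟩ := hcl n (by norm_num; exact hn8)
  rcases habc with h | h
  · refine ⟨A * s, B * s, C * s, ?_⟩
    have e := congrArg (Int.cast : ℤ → ℚ_[2]) h
    push_cast at e hqs
    rw [hqs]
    linear_combination -s ^ 2 * e
  · refine absurd ⟨s, ?_⟩ hs
    have e := congrArg (Int.cast : ℤ → ℚ_[2]) h
    push_cast at e hqs
    rw [hqs, e]
    ring

theorem exists_value_three {q : ℚ_[3]} (hq : q ≠ 0) (hs : ¬IsSquare (-q)) :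
    ∃ B C E : ℚ_[3], B ^ 2 - 3 * C ^ 2 - 3 * E ^ 2 = q := by
  obtain ⟨α, r, hα, hr, hcl⟩ := FA.QuadForms.exists_squareClass hq
  obtain ⟨s, -, hqs⟩ := hcl r (by simp)
  rw [Nat.cast_ofNat] at hr
  have hsq : ∀ n : ℤ, n % 3 = 1 → IsSquare (n : ℚ_[3]) := fun n hn => by
    refine FA.QuadForms.isSquare_of_residue (by norm_num) (by push_cast; omega) ⟨1, ?_⟩
    rw [mul_one, show (n : ZMod 3) = ((1 : ℤ) : ZMod 3) from
      (ZMod.intCast_eq_intCast_iff' n 1 3).2 (by push_cast; omega)]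
    simp
  obtain ⟨u, σ, hσ, hu⟩ : ∃ (u : ℚ_[3]) (σ : ℤ), (σ = 1 ∨ σ = -1) ∧
      (r : ℚ_[3]) = σ * (u * u) := by
    rcases (show r % 3 = 1 ∨ r % 3 = 2 by omega) with e | e
    · obtain ⟨u, hu⟩ := hsq r e
      exact ⟨u, 1, .inl rfl, by simpa using hu⟩
    · obtain ⟨u, hu⟩ := hsq (-r) (by omega)
      exact ⟨u, -1, .inr rfl, by push_cast at hu ⊢; linear_combination -hu⟩
  rw [hu] at hqs
  interval_cases α <;> rcases hσ with rfl | rfl <;> push_cast at hqs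
  · exact ⟨u * s, 0, 0, by rw [hqs]; ring⟩
  · exact absurd ⟨u * s, by rw [hqs]; ring⟩ hs
  · exact ⟨3 * (u * s), u * s, u * s, by rw [hqs]; ring⟩
  · exact ⟨0, u * s, 0, by rw [hqs]; ring⟩

theorem exists_value_other {p : ℕ} [hp : Fact p.Prime] (h2 : p ≠ 2) (h3 : p ≠ 3) (q : ℚ_[p]) :
    ∃ B C E : ℚ_[p], B ^ 2 - 3 * C ^ 2 - 3 * E ^ 2 = q := by
  classical
  have h1 : ¬(p : ℤ) ∣ 1 := fun h => hp.out.ne_one (Nat.dvd_one.1 (by exact_mod_cast h))
  have h33 : ¬(p : ℤ) ∣ -3 := fun h => h3 ((Nat.prime_dvd_prime_iff_eq hp.out Nat.prime_three).1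
    (by exact_mod_cast (dvd_neg.1 h)))
  have h := FA.QuadForms.isotropic_three_units h2 h1 h33 h33
  obtain ⟨x, hx⟩ := (FA.QuadForms.isotropic_option_iff (a := ![(1 : ℚ_[p]), -3, -3])
    (fun i => by fin_cases i <;> simp) (q := q)).1
    (FA.QuadForms.Isotropic.of_injective some (Option.some_injective _) (by
      have e : (fun i : Fin 3 => (some i).elim (-q) ![(1 : ℚ_[p]), -3, -3]) =
          ![((1 : ℤ) : ℚ_[p]), ((-3 : ℤ) : ℚ_[p]), ((-3 : ℤ) : ℚ_[p])] := by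
        funext i
        fin_cases i <;> simp
      exact e ▸ h))
  refine ⟨x 0, x 1, x 2, ?_⟩
  simp [Fin.sum_univ_three] at hx
  linear_combination hx

/-- An integer that is not divisible by `4` is a square in `ℚ₂`
exactly when it is `1` modulo `8`. -/
theorem isSquare_two_iff {n : ℤ} (h4 : ¬(4 : ℤ) ∣ n) :
    IsSquare (n : ℚ_[2]) ↔ (8 : ℤ) ∣ n - 1 := by
  refine ⟨fun ⟨s, hs⟩ => ?_, FA.QuadForms.isSquare_two_of_modEq⟩
  have hs1 : ‖s‖ ≤ 1 := by
    have h := Padic.norm_int_le_one (p := 2) n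
    rw [hs, norm_mul] at h
    nlinarith [norm_nonneg s]
  obtain ⟨t, ht⟩ : ∃ t : ℤ_[2], (t : ℚ_[2]) = s := ⟨⟨s, hs1⟩, rfl⟩
  have e : ((n : ℤ_[2])) = t * t := PadicInt.ext (by push_cast; rw [ht]; exact hs)
  have e8 := congrArg (PadicInt.toZModPow 3) e
  rw [map_intCast, map_mul] at e8
  have hsq : ∀ a : ZMod (2 ^ 3), a * a = 0 ∨ a * a = 1 ∨ a * a = 4 := by decide
  rcases hsq (PadicInt.toZModPow 3 t) with h | h | h <;> rw [h] at e8
  · have := (ZMod.intCast_zmod_eq_zero_iff_dvd n (2 ^ 3)).1 e8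
    exact absurd (dvd_trans ⟨2, by norm_num⟩ this) h4
  · have := (ZMod.intCast_eq_intCast_iff_dvd_sub 1 n (2 ^ 3)).1
      (by rw [Int.cast_one]; exact e8.symm)
    simpa using this
  · have := (ZMod.intCast_eq_intCast_iff_dvd_sub 4 n (2 ^ 3)).1
      (by rw [Int.cast_ofNat]; exact e8.symm)
    norm_num at this
    omega

/-- An integer that is not divisible by `9` is a square in `ℚ₃`
exactly when it is `1` modulo `3`. -/
theorem isSquare_three_iff {n : ℤ} (h9 : ¬(9 : ℤ) ∣ n) :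
    IsSquare (n : ℚ_[3]) ↔ (3 : ℤ) ∣ n - 1 := by
  refine ⟨fun ⟨s, hs⟩ => ?_, fun h => FA.QuadForms.isSquare_of_residue (by norm_num)
    (by push_cast; omega) ⟨1, ?_⟩⟩
  swap
  · rw [mul_one, show (n : ZMod 3) = ((1 : ℤ) : ZMod 3) from
      (ZMod.intCast_eq_intCast_iff' n 1 3).2 (by push_cast; omega)]
    simp
  have hs1 : ‖s‖ ≤ 1 := by
    have h := Padic.norm_int_le_one (p := 3) n
    rw [hs, norm_mul] at h
    nlinarith [norm_nonneg s]
  obtain ⟨t, ht⟩ : ∃ t : ℤ_[3], (t : ℚ_[3]) = s := ⟨⟨s, hs1⟩, rfl⟩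
  have e : ((n : ℤ_[3])) = t * t := PadicInt.ext (by push_cast; rw [ht]; exact hs)
  have e8 := congrArg (PadicInt.toZModPow 2) e
  rw [map_intCast, map_mul] at e8
  have hsq : ∀ a : ZMod (3 ^ 2), a * a = 0 ∨ a * a = 1 ∨ a * a = 4 ∨ a * a = 7 := by decide
  rcases hsq (PadicInt.toZModPow 2 t) with h | h | h | h <;> rw [h] at e8
  · exact absurd (by simpa using (ZMod.intCast_zmod_eq_zero_iff_dvd n (3 ^ 2)).1 e8) h9
  · have := (ZMod.intCast_eq_intCast_iff_dvd_sub 1 n (3 ^ 2)).1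
      (by rw [Int.cast_one]; exact e8.symm)
    norm_num at this
    omega
  · have := (ZMod.intCast_eq_intCast_iff_dvd_sub 4 n (3 ^ 2)).1
      (by rw [Int.cast_ofNat]; exact e8.symm)
    norm_num at this
    omega
  · have := (ZMod.intCast_eq_intCast_iff_dvd_sub 7 n (3 ^ 2)).1
      (by rw [Int.cast_ofNat]; exact e8.symm)
    norm_num at this
    omega

end FA.QuaternionEmbedding

end
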