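import Fermat.Agent.QuaternionHecke.Order
import Mathlib.Data.ZMod.Basic

/-!
# The order at the ramified primes

At `2` and at `3` every element of integral trace and norm lies in the order, so no embedding
there extends to a larger quadratic order.
-/

set_option autoImplicit false
set_option linter.unusedSectionVars false
set_option linter.style.haveILetI false

noncomputable section

open Matrix
open FA.Horocycle FA.QuaternionHecke

namespace FA.QuaternionEmbedding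

theorem dvd_coords_two {a b c e : ℤ} (h1 : (2 : ℤ) ∣ 2 * a + e)
    (h2 : (4 : ℤ) ∣ hurNorm (a, b, c, e)) :
    (2 : ℤ) ∣ a ∧ (2 : ℤ) ∣ b ∧ (2 : ℤ) ∣ c ∧ (2 : ℤ) ∣ e := by
  obtain ⟨l, rfl⟩ : (2 : ℤ) ∣ e := by simpa using dvd_sub h1 (dvd_mul_right 2 a)
  have h := (ZMod.intCast_zmod_eq_zero_iff_dvd _ 4).2 h2
  simp only [hurNorm] at h
  push_cast at h
  have key : ∀ a b c l : ZMod 4, a ^ 2 + a * (2 * l) + b ^ 2 + b * (2 * l) - 3 * c ^ 2 -
      3 * (c * (2 * l)) - (2 * l) ^ 2 = 0 → 2 * a = 0 ∧ 2 * b = 0 ∧ 2 * c = 0 := by decide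
  obtain ⟨ka, kb, kc⟩ := key _ _ _ _ h
  have half : ∀ n : ℤ, 2 * (n : ZMod 4) = 0 → (2 : ℤ) ∣ n := fun n hn => by
    have := (ZMod.intCast_zmod_eq_zero_iff_dvd (2 * n) 4).1 (by push_cast; exact hn)
    push_cast at this
    omega
  exact ⟨half a ka, half b kb, half c kc, dvd_mul_right 2 l⟩

theorem dvd_coords_three {a b c e : ℤ} (h1 : (3 : ℤ) ∣ 2 * a + e)
    (h2 : (9 : ℤ) ∣ hurNorm (a, b, c, e)) :
    (3 : ℤ) ∣ a ∧ (3 : ℤ) ∣ b ∧ (3 : ℤ) ∣ c ∧ (3 : ℤ) ∣ e := by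
  obtain ⟨l, hl⟩ := h1
  obtain rfl : e = -2 * a + 3 * l := by linarith
  obtain ⟨N, hN⟩ := h2
  simp only [hurNorm] at hN
  obtain ⟨k, rfl⟩ : ∃ k, b = a + 3 * k := by
    have h : (3 : ℤ) ∣ a ^ 2 + b ^ 2 - 2 * a * b :=
      ⟨3 * N + 2 * a ^ 2 - 5 * a * l - b * l + c ^ 2 - 2 * a * c + 3 * (c * l) + 3 * l ^ 2,
        by linear_combination hN⟩
    have h' := (ZMod.intCast_zmod_eq_zero_iff_dvd _ 3).2 h
    push_cast at h'
    have key : ∀ a b : ZMod 3, a ^ 2 + b ^ 2 - 2 * a * b = 0 → b - a = 0 := by decide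
    obtain ⟨k, hk⟩ := (ZMod.intCast_zmod_eq_zero_iff_dvd (b - a) 3).1
      (by push_cast; exact key _ _ h')
    exact ⟨k, by push_cast at hk; linarith⟩
  have h : (3 : ℤ) ∣ a ^ 2 - c ^ 2 - a * c :=
    ⟨N + a ^ 2 - 2 * a * l - k ^ 2 - k * l + c * l + l ^ 2 - a * c, by
      nlinarith [hN]⟩
  have h' := (ZMod.intCast_zmod_eq_zero_iff_dvd _ 3).2 h
  push_cast at h'
  have key : ∀ a c : ZMod 3, a ^ 2 - c ^ 2 - a * c = 0 → a = 0 ∧ c = 0 := by decide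
  obtain ⟨ka, kc⟩ := key _ _ h'
  have ha : (3 : ℤ) ∣ a := by exact_mod_cast (ZMod.intCast_zmod_eq_zero_iff_dvd a 3).1 ka
  have hc : (3 : ℤ) ∣ c := by exact_mod_cast (ZMod.intCast_zmod_eq_zero_iff_dvd c 3).1 kc
  exact ⟨ha, dvd_add ha (dvd_mul_right 3 k), hc,
    dvd_add (ha.mul_left (-2)) (dvd_mul_right 3 l)⟩

/-- **Saturation.** -/
theorem div_mem {p : ℕ} (hp : p = 2 ∨ p = 3) {y : Matrix (Fin 2) (Fin 2) ℝ} (hy : y ∈ order)
    {t N k : ℤ} (ht : y.trace = t) (hN : y.det = N) (h1 : (p : ℤ) ∣ t - 2 * k)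
    (h2 : (p : ℤ) ^ 2 ∣ N - k * t + k ^ 2) :
    (p : ℝ)⁻¹ • (y - (k : ℝ) • 1) ∈ order := by
  obtain ⟨⟨a, b, c, e⟩, rfl⟩ := hy
  have et : (t : ℝ) = 2 * a + e := by
    rw [← ht]
    simp [hurMat, realQuat, trace_fin_two]
    ring
  have et' : t = 2 * a + e := by exact_mod_cast et
  rw [det_hurMat] at hN
  have eN : hurNorm (a, b, c, e) = N := by exact_mod_cast hN
  have g1 : (p : ℤ) ∣ 2 * (a - k) + e := by
    rwa [show 2 * (a - k) + e = t - 2 * k by rw [et']; ring]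
  have g2 : (p : ℤ) ^ 2 ∣ hurNorm (a - k, b, c, e) := by
    rwa [show hurNorm (a - k, b, c, e) = N - k * t + k ^ 2 by
      rw [← eN, et']; simp only [hurNorm]; ring]
  obtain ⟨⟨a', ha⟩, ⟨b', hb⟩, ⟨c', hc⟩, ⟨e', he⟩⟩ : (p : ℤ) ∣ a - k ∧ (p : ℤ) ∣ b ∧
      (p : ℤ) ∣ c ∧ (p : ℤ) ∣ e := by
    rcases hp with rfl | rfl
    · exact dvd_coords_two (by exact_mod_cast g1) (by norm_num at g2; exact g2)
    · exact dvd_coords_three (by exact_mod_cast g1) (by norm_num at g2; exact g2)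
  obtain rfl : a = p * a' + k := by linarith
  subst hb hc he
  have hp0 : (p : ℝ) ≠ 0 := by rcases hp with rfl | rfl <;> norm_num
  refine ⟨(a', b', c', e'), smul_right_injective _ hp0 ?_⟩
  show (p : ℝ) • hurMat (a', b', c', e') = (p : ℝ) • ((p : ℝ)⁻¹ • _)
  rw [smul_inv_smul₀ hp0]
  ext i j
  fin_cases i <;> fin_cases j <;> simp [hurMat, realQuat] <;> ring

end FA.QuaternionEmbedding

end
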